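import Fermat.Statements.S43
import Fermat.Agent.Lowering.P3.Geometry
import Fermat.Agent.Lowering.P3.Inertia
import Fermat.Agent.Lowering.P3.Unipotent
import Fermat.Agent.Lowering.P3.Flat.Target
import Fermat.Agent.Lowering.P4.Assembly
import Fermat.Agent.Lowering.P1.TWBound.Target
import Fermat.Agent.Lowering.P1.Brauer.Assembly
import Fermat.Agent.Lowering.P1.Brauer.Hasse.Target
import Fermat.Agent.Lowering.P1.Primes.Target
import Fermat.Agent.Lowering.P1.UnitBound.Target
import Fermat.Agent.Lowering.P6.Point
import Fermat.Agent.Lowering.P6.Tangent.Target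
import Fermat.Agent.Lowering.P7.Principle
import Fermat.Agent.Lowering.P7.UnramifiedOld
import Fermat.Agent.Lowering.P8.Assembly
import Fermat.Agent.S44

/-!
# Level lowering at an odd prime where the Frey representation is unramified
-/

set_option autoImplicit false
open WeierstrassCurve WeierstrassCurve.Affine WeierstrassCurve.Affine.Point
open CuspForm ModularFormClass UpperHalfPlane
open FreyPackage

namespace Fermat.Agent.S43

theorem result (P : FreyPackage) {N q : ℕ} (hcond : P.IsConductorLevel N) (hq : q.Prime) (hq2 : q ≠ 2) (hqp : q ≠ P.p) (hqN : q ∣ N) (hirr : GaloisRepIsIrreducible (K := AlgebraicClosure ℚ) ℚ P.freyCurve P.p) (hmod : P.ModularRepOfLevel N) (hunr : P.GaloisRepUnramifiedAt q) : ∃ M : ℕ, M ∣ N ∧ ¬ q ∣ M ∧ P.ModularRepOfLevel M := by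
  exact FLTAgent.Lowering.level_lowering
    (fun p _ O _ _ _ _ _ _ _ S X => FLTAgent.Lowering.P3.geometry X FLTAgent.Lowering.P3.targetFlat
      FLTAgent.Lowering.P3.targetUnipotent FLTAgent.Lowering.P3.targetInertia)
    FLTAgent.Lowering.targetModules
    (FLTAgent.Lowering.P6.targetPoint (FLTAgent.Lowering.P6.targetTangent
      (FLTAgent.Lowering.P1.targetTWBound
        (FLTAgent.Lowering.P1.Brauer.targetInvariants_of_norm
          FLTAgent.Lowering.P1.Hasse.targetNormTheorem)
        (FLTAgent.Lowering.P1.UnitBound.targetUnitBound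
          (FLTAgent.Lowering.P1.Brauer.targetCyclic_of_norm
            FLTAgent.Lowering.P1.Hasse.targetNormTheorem))
        FLTAgent.Lowering.P1.targetPrimes)))
    FLTAgent.Lowering.P7.targetPrinciple FLTAgent.Lowering.P7.targetUnramifiedOld
    Fermat.Agent.S44.result P hcond hq hirr hmod hunr

end Fermat.Agent.S43
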