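import Fermat.Statements.S05
import Fermat.Agent.LocalEC.Frey

set_option autoImplicit false
open WeierstrassCurve WeierstrassCurve.Affine WeierstrassCurve.Affine.Point
open CuspForm ModularFormClass UpperHalfPlane
open FreyPackage

namespace Fermat.Agent.S05

open scoped WeierstrassCurve.Affine

theorem result (P : FreyPackage) {q : ℕ} (hq : q.Prime) (hq2 : q ≠ 2) (hqp : q ≠ P.p) : P.GaloisRepUnramifiedAt q := by
  intro A hA σ hσ x
  exact Subtype.ext (FLTAgent.LocalEC.frey_smul_eq P hq hq2 hqp hA hσ
    (T := x.1)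
    (by rw [← natCast_zsmul]; exact (Submodule.mem_torsionBy_iff _ _).mp x.2))

end Fermat.Agent.S05
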