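import Fermat.Statements.S02
import Mathlib.NumberTheory.FLT.Basic
import Mathlib.RingTheory.Int.Basic
-- import your own Fermat.Agent.* helpers here

set_option autoImplicit false
open FreyPackage

namespace Fermat.Agent.S02

private theorem mk_package {a b c : ℤ} (ha : a ≠ 0) (hb : b ≠ 0) (hc : c ≠ 0) {p : ℕ} (pp : p.Prime)
    (hp5 : 5 ≤ p) (H : a ^ p + b ^ p = c ^ p) (hg : gcd a b = 1) (hb2 : (2 : ℤ) ∣ b) :
    Nonempty FreyPackage := by
  have hodd : Odd p := pp.odd_of_ne_two (by omega)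
  have ha2 : ¬ (2 : ℤ) ∣ a := by
    intro h
    have : (2 : ℤ) ∣ gcd a b := dvd_gcd h hb2
    rw [hg] at this
    exact absurd this (by decide)
  have hb2' : (b : ZMod 2) = 0 := (ZMod.intCast_zmod_eq_zero_iff_dvd b 2).2 hb2
  rcases (show a % 4 = 3 ∨ a % 4 = 1 by omega) with h | h
  · exact ⟨{ a := a, b := b, c := c, ha0 := ha, hb0 := hb, hc0 := hc, p := p, pp := pp, hp5 := hp5,
             hFLT := H, hgcdab := hg,
             ha4 := by rw [← ZMod.intCast_mod a 4]; push_cast; rw [h]; rfl, hb2 := hb2' }⟩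
  · refine ⟨{ a := -a, b := -b, c := -c, ha0 := neg_ne_zero.2 ha, hb0 := neg_ne_zero.2 hb,
              hc0 := neg_ne_zero.2 hc, p := p, pp := pp, hp5 := hp5,
              hFLT := ?_, hgcdab := ?_, ha4 := ?_, hb2 := by simp [hb2'] }⟩
    · rw [hodd.neg_pow, hodd.neg_pow, hodd.neg_pow, ← H]; ring
    · rw [← Int.coe_gcd, Int.neg_gcd, Int.gcd_neg, Int.coe_gcd, hg]
    · push_cast
      rw [← ZMod.intCast_mod a 4]; push_cast; rw [h]; rfl

private theorem coprime_case {a b c : ℤ} (ha : a ≠ 0) (hb : b ≠ 0) (hc : c ≠ 0) {p : ℕ}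
    (pp : p.Prime) (hp5 : 5 ≤ p) (H : a ^ p + b ^ p = c ^ p) (hg : gcd a b = 1) :
    Nonempty FreyPackage := by
  have hodd : Odd p := pp.odd_of_ne_two (by omega)
  have hp : 0 < p := by omega
  by_cases hb2 : (2 : ℤ) ∣ b
  · exact mk_package ha hb hc pp hp5 H hg hb2
  by_cases ha2 : (2 : ℤ) ∣ a
  · exact mk_package hb ha hc pp hp5 (by rw [add_comm]; exact H) (by rw [gcd_comm]; exact hg) ha2
  · have hc2 : (2 : ℤ) ∣ c := by
      have hae : Odd (a ^ p) := (Int.not_even_iff_odd.1 (by rwa [even_iff_two_dvd])).pow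
      have hbe : Odd (b ^ p) := (Int.not_even_iff_odd.1 (by rwa [even_iff_two_dvd])).pow
      have : Even (c ^ p) := H ▸ hae.add_odd hbe
      rw [Int.even_pow' hp.ne', even_iff_two_dvd] at this
      exact this
    have hg2 : gcd a (-c) = 1 := by
      have := FreyPackage.gcdab_eq_gcdac hp H
      rw [← Int.coe_gcd, Int.gcd_neg, Int.coe_gcd, ← this, hg]
    exact mk_package ha (neg_ne_zero.2 hc) (neg_ne_zero.2 hb) pp hp5
      (by rw [hodd.neg_pow, hodd.neg_pow]; linarith) hg2 hc2.neg_right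

theorem result (a b c : ℤ) (ha : a ≠ 0) (hb : b ≠ 0) (hc : c ≠ 0) (p : ℕ) (pp : p.Prime) (hp5 : 5 ≤ p) (H : a ^ p + b ^ p = c ^ p) : Nonempty FreyPackage := by
  have hd : gcd a b ≠ 0 := by simp [gcd_eq_zero_iff, ha]
  set d := gcd a b with hd'
  obtain ⟨a', ha'⟩ : d ∣ a := gcd_dvd_left a b
  obtain ⟨b', hb'⟩ : d ∣ b := gcd_dvd_right a b
  have hp : 0 < p := by omega
  have hdc : d ∣ c := by
    rw [← Int.pow_dvd_pow_iff hp.ne', ← H, ha', hb', mul_pow, mul_pow]
    exact dvd_add (dvd_mul_right _ _) (dvd_mul_right _ _)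
  obtain ⟨c', hc'⟩ := hdc
  have hg : gcd a' b' = 1 := by
    have h := gcd_mul_left d a' b'
    rw [← ha', ← hb', ← hd'] at h
    have hn : normalize d = d := by rw [hd', normalize_gcd]
    rw [hn] at h
    exact mul_left_cancel₀ hd (by rw [← h, mul_one])
  refine coprime_case (right_ne_zero_of_mul (ha' ▸ ha)) (right_ne_zero_of_mul (hb' ▸ hb))
    (right_ne_zero_of_mul (hc' ▸ hc)) pp hp5 ?_ hg
  rw [ha', hb', hc', mul_pow, mul_pow, mul_pow, ← mul_add] at H
  exact mul_left_cancel₀ (pow_ne_zero p hd) H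

end Fermat.Agent.S02
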