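import Fermat.Statements.S08
import Fermat.Agent.CuspForms.SmallLevel

set_option autoImplicit false
open WeierstrassCurve WeierstrassCurve.Affine WeierstrassCurve.Affine.Point
open CuspForm ModularFormClass UpperHalfPlane
open ModularForm

namespace Fermat.Agent.S08

theorem result (f : CuspForm (CongruenceSubgroup.Gamma0 1) 2) : f = 0 := by
  exact FLTAgent.CuspForms.eq_zero_of_index_lt_six 1 (by rw [FLTAgent.CuspForms.index_Gamma0_one]; omega) f

end Fermat.Agent.S08
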