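import Fermat.Statements.S17
import Fermat.Agent.MW.Descent
import Fermat.Agent.MW.Modular.Classes
import Fermat.Agent.MW.Modular.Residue

set_option autoImplicit false
open ModularCurve AlgebraicCurve
open ModularCurve ModularCurve.JZero

namespace Fermat.Agent.S17

theorem result (N : ℕ) [NeZero N] (hN : N.Prime) (hN5 : 5 ≤ N) :
    AddGroup.FG ↥(FixedPoints.addSubgroup ((AlgebraicClosure ℚ) ≃ₐ[ℚ] (AlgebraicClosure ℚ)) (JZero N)) :=
  FLTAgent.MW.Modular.fg_of_fg_ratCls
    (FLTAgent.MW.Sys.fg_of_weak (FLTAgent.MW.Modular.input N) (FLTAgent.MW.Modular.sys N)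
      FLTAgent.MW.Modular.weak_ratCls)

end Fermat.Agent.S17
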