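import Fermat.Statements.S19
import Fermat.Agent.FlatModel.Modular
import Fermat.Agent.Frobenius.Exists

/-!
# S19: finite flat models of the torsion of `J₀(p)`
-/

set_option autoImplicit false
open ModularCurve
open ModularCurve

namespace Fermat.Agent.S19

theorem result
    (p : ℕ) [NeZero p] (ℓ : ℕ) [Fact ℓ.Prime] (hℓp : ¬ ℓ ∣ p) (k : ℕ) :
    ∃ (H : Type) (_ : CommRing H) (_ : HopfAlgebra (GaloisRep.ratLocalizedAt ℓ) H),
      Module.Finite (GaloisRep.ratLocalizedAt ℓ) H ∧ Module.Flat (GaloisRep.ratLocalizedAt ℓ) H ∧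
      Coalgebra.IsCocomm (GaloisRep.ratLocalizedAt ℓ) H ∧
      ∃ e : WithConv (H →ₐ[GaloisRep.ratLocalizedAt ℓ] AlgebraicClosure ℚ) ≃
          ↥(Submodule.torsionBy ℤ (JZero p) ((ℓ : ℤ) ^ k)),
        (∀ f g, e (f * g) = e f + e g) ∧
        ∀ (σ : AlgebraicClosure ℚ ≃ₐ[ℚ] AlgebraicClosure ℚ)
          (f g : WithConv (H →ₐ[GaloisRep.ratLocalizedAt ℓ] AlgebraicClosure ℚ)),
          (∀ h : H, g h = σ (f h)) → ((e g : JZero p)) = σ • (e f : JZero p) := by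
  letI := FLTAgent.FlatModel.torsionByAction p ((ℓ : ℤ) ^ k)
  obtain ⟨A, hA⟩ := FLTAgent.Frobenius.exists_liesOverPrime ℓ Fact.out
  haveI : NeZero (ℓ ^ k) := ⟨pow_ne_zero _ (Fact.out : ℓ.Prime).ne_zero⟩
  haveI : Finite ↥(Submodule.torsionBy ℤ (JZero p) ((ℓ : ℤ) ^ k)) :=
    Nat.finite_of_card_ne_zero (by
      rw [FLTAgent.FlatModel.card_torsion_pow (ℓ := ℓ) p k]
      exact pow_ne_zero _ (NeZero.ne _))
  obtain ⟨O⟩ := FLTAgent.FlatModel.exists_hopfOrder_jZero (ℓ := ℓ) p hℓp hA k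
  obtain ⟨H, hR, hH, h1, h2, h3, e, he, heσ⟩ := O.isFlatModule
  exact ⟨H, hR, hH, h1, h2, h3, e, he, fun σ f g h => congrArg Subtype.val (heσ σ f g h)⟩

end Fermat.Agent.S19
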