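import Fermat.Statements.S20
import Fermat.Agent.ES.Primitive
import Fermat.Agent.ES.Cocycle
import Fermat.Agent.ES.Separation
import Fermat.Agent.ES.Dimension
import Fermat.Agent.ES.CuspOrbits

set_option autoImplicit false
open CuspForm

namespace Fermat.Agent.S20

theorem result (N : ℕ) [NeZero N] :
    (Module.finrank ℂ (CuspForm (CongruenceSubgroup.Gamma0 N) 2) : ℚ) = ModularCurve.genusFormula N := by
  have hneg := FLTAgent.ES.Gamma0_neg_one_mem (N := N)
  obtain ⟨hfin, hup⟩ := FLTAgent.ES.finrank_parabolicHoms_add_le hneg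
  obtain ⟨hfinS, hlow⟩ :=
    FLTAgent.ES.finrank_cuspForm_ge hneg (FLTAgent.ES.exists_span_eq_top N)
  have hinj := Submodule.finrank_mono (FLTAgent.ES.range_periodHomPair_le (N := N))
  rw [LinearMap.finrank_range_of_inj (FLTAgent.ES.periodHomPair_injective (N := N)),
    Module.finrank_prod] at hinj
  have hS := FLTAgent.ES.finrank_fixed_S N
  have hR := FLTAgent.ES.finrank_fixed_ST N
  have hT := FLTAgent.ES.finrank_fixed_T N
  rw [FLTAgent.ES.card_cosets_eq_psi] at hup hlow hS hR
  have key : 12 * Module.finrank ℂ (CuspForm (CongruenceSubgroup.Gamma0 N) 2) +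
      3 * ModularCurve.nuTwo N + 4 * ModularCurve.nuThree N + 6 * ModularCurve.cuspCount N
      = ModularCurve.dedekindPsi N + 12 := by
    omega
  have keyQ : (12 * (Module.finrank ℂ (CuspForm (CongruenceSubgroup.Gamma0 N) 2) : ℚ) +
      3 * ModularCurve.nuTwo N + 4 * ModularCurve.nuThree N + 6 * ModularCurve.cuspCount N)
      = ModularCurve.dedekindPsi N + 12 := by exact_mod_cast key
  rw [ModularCurve.genusFormula]
  linear_combination keyQ / 12

end Fermat.Agent.S20
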