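import Fermat.Statements.S21
import Fermat.Agent.ES.Primitive
import Fermat.Agent.ES.Cocycle
import Fermat.Agent.ES.Separation
import Fermat.Agent.ES.Dimension

set_option autoImplicit false
open ModularCurve

namespace Fermat.Agent.S21

theorem result (N : ℕ) [NeZero N] :
    Function.Injective (ModularCurve.periodHomPair N)
      ∧ LinearMap.range (ModularCurve.periodHomPair N)
          = ModularCurve.Period.parabolicHoms ℂ (CongruenceSubgroup.Gamma0 N) ℂ := by
  refine ⟨FLTAgent.ES.periodHomPair_injective, ?_⟩
  have hneg := FLTAgent.ES.Gamma0_neg_one_mem (N := N)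
  obtain ⟨hfin, hup⟩ := FLTAgent.ES.finrank_parabolicHoms_add_le hneg
  obtain ⟨hfinS, hlow⟩ :=
    FLTAgent.ES.finrank_cuspForm_ge hneg (FLTAgent.ES.exists_span_eq_top N)
  refine Submodule.eq_of_le_of_finrank_le FLTAgent.ES.range_periodHomPair_le ?_
  rw [LinearMap.finrank_range_of_inj (FLTAgent.ES.periodHomPair_injective (N := N)), Module.finrank_prod]
  omega

end Fermat.Agent.S21
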