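import Fermat.Statements.S25
import Fermat.Agent.PicScheme.Assembly
import Fermat.Agent.PicScheme.Rep
import Fermat.Agent.PicScheme.Curve.Frame
import Fermat.Agent.PicScheme.Modules.Dict
import Fermat.Agent.PicScheme.Modules.Descent
import Fermat.Agent.PicScheme.Degree.Main
import Fermat.Agent.PicScheme.Points.Generate
-- import your own Fermat.Agent.* helpers here

set_option autoImplicit false
set_option autoImplicit false
universe u
open CategoryTheory CategoryTheory.Limits AlgebraicGeometry AlgebraicGeometry.RelPicard NeronModelInfra
  GoodReductionJacobian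
open AlgebraicGeometry AlgebraicGeometry.RelPicard

namespace Fermat.Agent.S25

theorem result
    (k : Type u) [Field k] [IsAlgClosed k] {C : Scheme.{u}} (c : C ⟶ Spec (CommRingCat.of k))
    [IsProper c] [SmoothOfRelativeDimension 1 c] [IsIntegral C]
    (ε : SchemeHomOver (𝟙 (Spec (CommRingCat.of k))) c) :
    ∃ D : RelativePic0Designation k c,
      Nonempty (RepresentsRelSubPic c ε (algEquivZeroCut c ε) D) ∧
        Smooth D.toBase ∧ IsProper D.toBase ∧ GeometricallyConnected D.toBase := by
  exact FLTAgent.PicScheme.exists_representsRelSubPic FLTAgent.PicScheme.targetFrame FLTAgent.PicScheme.targetDict FLTAgent.PicScheme.targetDescent FLTAgent.PicScheme.targetRep FLTAgent.PicScheme.targetProps (FLTAgent.PicScheme.Degree.targetDegree FLTAgent.PicScheme.targetDescent) k c ε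

end Fermat.Agent.S25
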