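import Fermat.Statements.S27
import Fermat.Agent.Jac27.Assembly
import Fermat.Agent.Jac27.Genus
import Fermat.Agent.Jac27.Finite.Interface
import Fermat.Agent.Jac27.Finite.Torsion
import Fermat.Agent.Jac27.Finite.Geom.Target
import Fermat.Agent.Jac27.Spread.Target
import Fermat.Agent.Jac27.Lift.Target

/-!
# The torsion of the classes of degree zero of a curve in characteristic zero
-/

set_option autoImplicit false
set_option autoImplicit false
open AlgebraicCurve
open AlgebraicCurve AlgebraicCurve.Pic0

namespace Fermat.Agent.S27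

theorem result
    (K F : Type*) [Field K] [Field F] [Algebra K F] [IsAlgClosed K] [CharZero K]
    [IsCurveOver K F] [Algebra.EssFiniteType K F]
    (ℓ : ℕ) [Fact ℓ.Prime] (k : ℕ) :
    Nat.card (Pic0.torsion K F (ℓ ^ k)) = ℓ ^ (2 * genusFF K F * k) := by
  exact FLTAgent.Jac27.card_torsion_of
    (FLTAgent.Jac27.Finite.targetFiniteField_of FLTAgent.Jac27.Finite.targetCountData
      FLTAgent.Jac27.Finite.targetTorsion)
    FLTAgent.Jac27.targetLift FLTAgent.Jac27.targetSpread FLTAgent.Jac27.targetGenus K F ℓ
    (Fact.out : ℓ.Prime) k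

end Fermat.Agent.S27
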