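import Fermat.Statements.S41
import Fermat.Agent.LevelRaise.Final

set_option autoImplicit false
open WeierstrassCurve WeierstrassCurve.Affine WeierstrassCurve.Affine.Point
open scoped CongruenceSubgroup
open WeierstrassCurve

namespace Fermat.Agent.S41

theorem result
    (E : WeierstrassCurve ℚ) [E.IsElliptic] {W : WeierstrassCurve ℤ} (hW : W.IsIntegralModelOf E)
    {p N q' : ℕ} (hp : p.Prime) (hp2 : p ≠ 2) (hN : 0 < N) (hq' : q'.Prime) (hq'N : ¬ q' ∣ N) (hq'p : q' ≠ p)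
    (hirr : GaloisRepIsIrreducible (K := AlgebraicClosure ℚ) ℚ E p)
    (f : CuspForm (CongruenceSubgroup.Gamma0 N) 2) (𝔪 : Ideal (integralClosure ℤ ℂ))
    (hf : f.IsNormalizedEigenform) (hmax : 𝔪.IsMaximal) (hpm : (p : integralClosure ℤ ℂ) ∈ 𝔪)
    (hcong : ∀ ℓ : ℕ, ℓ.Prime → W.IsGoodPrimeFor ℓ → ¬ ℓ ∣ N → ℓ ≠ p →
      ∃ a : integralClosure ℤ ℂ, (a : ℂ) = ModularFormClass.qCoeff f ℓ ∧
        a - ((W.apOfModel ℓ : ℤ) : integralClosure ℤ ℂ) ∈ 𝔪)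
    (hLR : ∃ a : integralClosure ℤ ℂ, (a : ℂ) = ModularFormClass.qCoeff f q' ∧
      a ^ 2 - ((q' : integralClosure ℤ ℂ) + 1) ^ 2 ∈ 𝔪) :
    ∃ (g : CuspForm (CongruenceSubgroup.Gamma0 (N * q')) 2) (𝔪' : Ideal (integralClosure ℤ ℂ)),
      g.IsNormalizedEigenform ∧ 𝔪'.IsMaximal ∧ (p : integralClosure ℤ ℂ) ∈ 𝔪' ∧
      (∀ ℓ : ℕ, ℓ.Prime → W.IsGoodPrimeFor ℓ → ¬ ℓ ∣ N * q' → ℓ ≠ p →
        ∃ a : integralClosure ℤ ℂ, (a : ℂ) = ModularFormClass.qCoeff g ℓ ∧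
          a - ((W.apOfModel ℓ : ℤ) : integralClosure ℤ ℂ) ∈ 𝔪') ∧
      g.IsNewAt q' := by
  have := Fact.mk hp
  have := Fact.mk hq'
  have : NeZero N := ⟨hN.ne'⟩
  have : NeZero (N * q') := ⟨Nat.mul_ne_zero hN.ne' hq'.ne_zero⟩
  obtain ⟨B⟩ := FLTAgent.LevelRaise.exists_bez (N := N) hq'N
  have hnot : ∀ r, ¬ r ∣ N * q' → ¬ r ∣ N := fun r h h' => h (dvd_mul_of_dvd_left h' q')
  obtain ⟨r₀, hr₀, hr₀S, hr₀p, hgood, hne⟩ := FLTAgent.LevelRaise.exists_prime_ne_one_add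
    (FLTAgent.LevelRaise.discr_ne_zero_of_model hW) hp2
    (FLTAgent.LevelRaise.resW_irreducible hW hirr) (N * q').primeFactors
  obtain ⟨g, 𝔪', hg, hm', hp', hg', hnew⟩ := FLTAgent.LevelRaise.exists_newAt_congruent B hq'p hp2
    hf 𝔪 hpm {r | r.Prime ∧ W.IsGoodPrimeFor r ∧ ¬ r ∣ N * q' ∧ r ≠ p} (fun r h => h.1)
    (fun r h => h.2.2.1) (fun r => W.apOfModel r)
    (fun r h => hcong r h.1 h.2.1 (hnot r h.2.2.1) h.2.2.2) hLR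
    ⟨hr₀, hgood, fun h => hr₀S (Nat.mem_primeFactors.mpr
      ⟨hr₀, h, Nat.mul_ne_zero hN.ne' hq'.ne_zero⟩), hr₀p⟩ hne
  exact ⟨g, 𝔪', hg, hm', hp', fun r h1 h2 h3 h4 => hg' r ⟨h1, h2, h3, h4⟩, hnew⟩

end Fermat.Agent.S41
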