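import Fermat.Statements.S42
import Fermat.Agent.EigenReps.Residual
import Fermat.Agent.Torsion.Residual
import Fermat.Agent.Reducible.Frey

set_option autoImplicit false
set_option linter.style.haveILetI false
open FreyPackage

namespace Fermat.Agent.S42

theorem result (P : FreyPackage) :
    ∀ M : ℕ, 0 < M → P.EigenformResidualAttachmentAt M := by
  intro M hM g hg 𝔪 h𝔪 hp𝔪
  haveI : NeZero M := ⟨hM.ne'⟩
  haveI : Fact P.p.Prime := ⟨P.pp⟩
  haveI := h𝔪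
  let K := integralClosure ℤ ℂ ⧸ 𝔪
  letI : Field K := Ideal.Quotient.field 𝔪
  have hpK : (P.p : K) = 0 := by
    rw [← map_natCast (Ideal.Quotient.mk 𝔪)]
    exact Ideal.Quotient.eq_zero_iff_mem.mpr hp𝔪
  haveI : CharP K P.p :=
    (CharP.charP_iff_prime_eq_zero P.pp).mpr hpK
  obtain ⟨r, ⟨L₁, hL₁, hfix₁⟩, -, hfrob⟩ :=
    FLTAgent.EigenReps.exists_residual hg (p := P.p) (Ideal.Quotient.mk 𝔪)
  have := FLTAgent.Reducible.isElliptic_freyCurve P
  obtain ⟨L₂, hL₂, hfix₂⟩ :=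
    FLTAgent.Torsion.galoisFactorsThroughFiniteLevel_torsion P.freyCurve P.pp.ne_zero
  haveI := hL₁
  haveI := hL₂
  let F := IntermediateField.normalClosure ℚ ↥(L₁ ⊔ L₂) (AlgebraicClosure ℚ)
  haveI : IsAlgClosure ℚ (AlgebraicClosure ℚ) := ⟨inferInstance, AlgebraicClosure.isAlgebraic ℚ⟩
  haveI : Normal ℚ (AlgebraicClosure ℚ) := IsAlgClosure.normal ℚ _
  haveI : Normal ℚ F := normalClosure.normal ℚ _ _
  haveI : IsGalois ℚ F := IsGalois.mk
  haveI : NumberField F := NumberField.mk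
  let ρ : Representation K (AlgebraicClosure ℚ ≃ₐ[ℚ] AlgebraicClosure ℚ) (Fin 2 → K) :=
    (Matrix.toLinAlgEquiv' (R := K) (n := Fin 2)).toRingEquiv.toRingHom.toMonoidHom.comp r
  refine ⟨K, inferInstance, ZMod.algebra K P.p, Fin 2 → K, inferInstance, inferInstance, ρ,
    Ideal.Quotient.mk 𝔪, ↥F, inferInstance, inferInstance, inferInstance, inferInstance,
    inferInstance, le_of_eq Ideal.mk_ker.symm, by simp, fun τ hτ => ?_, ?_, ?_⟩
  · have hfix : ∀ a ∈ L₁ ⊔ L₂, τ a = a := fun a ha => by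
      have h := AlgEquiv.restrictNormal_commutes τ F
        ⟨a, IntermediateField.le_normalClosure _ ha⟩
      rw [show AlgEquiv.restrictNormal τ F = 1 from hτ] at h
      exact h.symm
    refine ⟨hfix₂ τ fun a ha => hfix a ((le_sup_right : L₂ ≤ L₁ ⊔ L₂) ha), ?_⟩
    show Matrix.toLinAlgEquiv' (r τ) = 1
    rw [hfix₁ τ fun a ha => hfix a ((le_sup_left : L₁ ≤ L₁ ⊔ L₂) ha), map_one]
  · intro ℓ hℓ hℓM hℓp A hA τ hτ
    obtain ⟨a, ha, htr, -⟩ := hfrob ℓ hℓ hℓM hℓp A hA τ hτ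
    exact ⟨a, ha, (Matrix.trace_toLin'_eq (r τ)).trans htr⟩
  · intro ℓ hℓ hℓM hℓp A hA τ hτ
    obtain ⟨a, -, -, hdet⟩ := hfrob ℓ hℓ hℓM hℓp A hA τ hτ
    exact (LinearMap.det_toLin' (r τ)).trans hdet

end Fermat.Agent.S42
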