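import Fermat.Statements.S45
import Fermat.Agent.CarayolK.Glue.Main
import Fermat.Agent.CarayolK.Main

/-!
# A modular Frey curve with irreducible torsion gives a form on `Γ₀(2)`
-/

set_option autoImplicit false
open WeierstrassCurve WeierstrassCurve.Affine WeierstrassCurve.Affine.Point
open CuspForm ModularFormClass UpperHalfPlane
open FreyPackage

namespace Fermat.Agent.S45

theorem result (P : FreyPackage) (hmod : P.freyCurve.IsModular) (hirr : GaloisRepIsIrreducible (K := AlgebraicClosure ℚ) ℚ P.freyCurve P.p) : ∃ f : CuspForm (CongruenceSubgroup.Gamma0 2) 2, f ≠ 0 := by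
  refine FLTAgent.CarayolK.exists_form_two_of_bound
    (FLTAgent.CarayolK.carayolBound_all fun q K M'' _ hne hq hK => ?_) P hmod hirr
  haveI : NeZero q := ⟨(Fact.out : q.Prime).ne_zero⟩
  haveI : NeZero M'' := ⟨fun h => hne.out (by rw [h, mul_zero])⟩
  exact FLTAgent.CarayolK.carayol_bound q M'' K hq hK

end Fermat.Agent.S45
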